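import Mathlib
import Fermat.Agent.Lib.CFT.Global.Ideles
import Fermat.Agent.Lib.CFT.Global.FirstIneq
import Fermat.Agent.Lib.CFT.Coh.RestrictedProd

/-!
# The ideles as a restricted product over the rational places (P-CFT, Global/CohIdeles, part B)

helper58.  A uniform description of the local factors of the idele group of `Global/Ideles.lean`:
the rational places are `RatPlace := Option Nat.Primes` (`none` is the real place), the completion
of `ℚ` at a place is `CompQ i` (`ℝ` or `ℚ_[q]`), and `PlaceAlg L i := CompQ i ⊗[ℚ] L` is
definitionally `ArchAlg L` resp. `LocAlg L q`.  The idele group, with the projections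
`ideleProj L i : Idele L →* (PlaceAlg L i)ˣ`, is the restricted product of the unit groups
`(PlaceAlg L i)ˣ` with respect to `placeIntUnits L i` (`⊤` at the real place, `locIntUnits L q`
at `q`): `isRestrictedProd_idele`.
-/

set_option autoImplicit false

open scoped TensorProduct NumberField

noncomputable section

namespace Fermat.Agent.Lib.CFT.Global.CohIdeles

open Fermat.Agent.Lib.CFT.Global Fermat.Agent.Lib.CFT.Coh.RestrictedProd

/-- The rational places: `none` is the real place, `some q` the `q`-adic one. -/
abbrev RatPlace : Type := Option Nat.Primes

/-- The completion of `ℚ` at a rational place. -/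
def CompQ : RatPlace → Type
  | none => ℝ
  | some q => ℚ_[pv q]

instance compQField : ∀ i : RatPlace, Field (CompQ i)
  | none => inferInstanceAs (Field ℝ)
  | some q => inferInstanceAs (Field ℚ_[pv q])

instance compQAlgebra : ∀ i : RatPlace, Algebra ℚ (CompQ i)
  | none => inferInstanceAs (Algebra ℚ ℝ)
  | some q => inferInstanceAs (Algebra ℚ ℚ_[pv q])

section Alg

variable (L : Type) [Field L] [CharZero L]

/-- The algebra `CompQ i ⊗[ℚ] L`: `ArchAlg L` at the real place and `LocAlg L q` at `q`. -/
abbrev PlaceAlg (i : RatPlace) : Type := CompQ i ⊗[ℚ] L

example : PlaceAlg L none = ArchAlg L := rfl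
example (q : Nat.Primes) : PlaceAlg L (some q) = LocAlg L q := rfl

variable (G : Type) [Group G] [MulSemiringAction G L]

/-- The action of `G` on `PlaceAlg L i` through the second factor. -/
instance placeAlgAction : ∀ i : RatPlace, MulSemiringAction G (PlaceAlg L i)
  | none => archAlgAction L G
  | some q => locAlgAction L G q

/-- The action on the unit groups. -/
instance placeUnitsAction (i : RatPlace) : MulDistribMulAction G (PlaceAlg L i)ˣ :=
  Units.mulDistribMulActionRight

end Alg

section Idele

variable (L : Type) [Field L] [NumberField L]

/-- The integral units at a rational place: everything at the real place, `locIntUnits L q`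
at `q`. -/
def placeIntUnits : ∀ i : RatPlace, Subgroup (PlaceAlg L i)ˣ
  | none => ⊤
  | some q => locIntUnits L q

@[simp] lemma placeIntUnits_none : placeIntUnits L none = ⊤ := rfl

@[simp] lemma placeIntUnits_some (q : Nat.Primes) :
    placeIntUnits L (some q) = locIntUnits L q := rfl

/-- The projection of the ideles onto the local factor at a rational place. -/
def ideleProj : ∀ i : RatPlace, Idele L →* (PlaceAlg L i)ˣ
  | none => (MonoidHom.snd _ _).comp (ideleSubgroup L).subtype
  | some q => (Pi.evalMonoidHom (fun q : Nat.Primes => (LocAlg L q)ˣ) q).comp
      ((MonoidHom.fst _ _).comp (ideleSubgroup L).subtype)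

@[simp] lemma ideleProj_none (x : Idele L) : ideleProj L none x = (x : IdeleProd L).2 := rfl

@[simp] lemma ideleProj_some (q : Nat.Primes) (x : Idele L) :
    ideleProj L (some q) x = (x : IdeleProd L).1 q := rfl

variable (G : Type) [Group G] [MulSemiringAction G L]

lemma ideleProj_smul (i : RatPlace) (g : G) (x : Idele L) :
    ideleProj L i (g • x) = g • ideleProj L i x := by
  cases i with
  | none => rfl
  | some q => rfl

lemma smul_mem_placeIntUnits (i : RatPlace) (g : G) {u : (PlaceAlg L i)ˣ}
    (hu : u ∈ placeIntUnits L i) : g • u ∈ placeIntUnits L i := by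
  cases i with
  | none => exact Subgroup.mem_top _
  | some q => exact smul_mem_locIntUnits L G q g hu

/-- **The idele group is the restricted product of the local unit groups.** -/
theorem isRestrictedProd_idele :
    IsRestrictedProd G (Idele L) (ideleProj L) (placeIntUnits L) where
  equivariant := ideleProj_smul L G
  stable i g u hu := smul_mem_placeIntUnits L G i g hu
  ext x hx := by
    apply Subtype.ext
    apply Prod.ext
    · funext q
      exact hx (some q)
    · exact hx none
  finite x := by
    have hsub : {i : RatPlace | ideleProj L i x ∉ placeIntUnits L i} ⊆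
        some '' {q : Nat.Primes | (x : IdeleProd L).1 q ∉ locIntUnits L q} := by
      intro i hi
      cases i with
      | none => exact absurd (Subgroup.mem_top _) hi
      | some q => exact ⟨q, hi, rfl⟩
    exact (x.2.image _).subset hsub
  glue m hm := by
    have hfin : {q : Nat.Primes | m (some q) ∉ locIntUnits L q}.Finite := by
      have : {q : Nat.Primes | m (some q) ∉ locIntUnits L q} =
          some ⁻¹' {i : RatPlace | m i ∉ placeIntUnits L i} := rfl
      rw [this]
      exact hm.preimage (Option.some_injective _).injOn
    refine ⟨⟨(fun q => m (some q), m none), hfin⟩, fun i => ?_⟩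
    cases i with
    | none => rfl
    | some q => rfl

/-- The `S`-ideles of `Global/FirstIneq.lean` are the `S ∪ {∞}`-part of the restricted
product. -/
theorem mem_sIdeles_iff (S : Finset Nat.Primes) (x : Idele L) :
    x ∈ FirstIneq.sIdeles L (S : Set Nat.Primes) ↔
      ∀ i : RatPlace, i ∉ insert none (S.map ⟨some, Option.some_injective _⟩) →
        ideleProj L i x ∈ placeIntUnits L i := by
  constructor
  · intro hx i hi
    cases i with
    | none => exact Subgroup.mem_top _
    | some q =>
      refine hx q (fun hq => hi ?_)
      rw [Finset.mem_insert]
      right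
      exact Finset.mem_map.mpr ⟨q, hq, rfl⟩
  · intro hx q hq
    refine hx (some q) (fun hmem => hq ?_)
    rw [Finset.mem_insert] at hmem
    rcases hmem with h0 | h1
    · exact absurd h0 (by simp)
    · obtain ⟨q', hq', h2⟩ := Finset.mem_map.mp h1
      have : q' = q := Option.some_injective _ h2
      exact this ▸ hq'

end Idele

end Fermat.Agent.Lib.CFT.Global.CohIdeles
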