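import Mathlib
import Fermat.Agent.Lib.CFT.Global.CohIdeles.Factors

/-!
# Cohomology of the idele group: reduction to the local factors (P-CFT, Global/CohIdeles, part C)

helper58.  Instantiation of `Coh/RestrictedProd.lean` at the idele group.  All results are
conditional on elementary local hypotheses at the rational places (`H1TrivialOn`, `H2TrivialOn`,
`HerbrandTrivialOn`), which are discharged in the local part of the work package.

* `herbrandCycMul_sIdeles`: `h(J_{L,S}) = (∏_{q ∈ S} h((ℚ_q ⊗ L)ˣ)) · h((ℝ ⊗ L)ˣ)`;
* `isZero_H1_idele`: `H¹(G, J_L) = 0`;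
* `H2_idele_ext`, `H2_idele_finite_support`, `H2_idele_exists`:
  `H²(G, J_L) = ⨁_i H²(G, (PlaceAlg L i)ˣ)` in elementary form.
-/

set_option autoImplicit false

open scoped TensorProduct NumberField

noncomputable section

namespace Fermat.Agent.Lib.CFT.Global.CohIdeles

open Fermat.Agent.Lib.CFT.Global Fermat.Agent.Lib.CFT.Coh.RestrictedProd
open Fermat.Agent.Lib.CFT.Herbrand

variable (L : Type) [Field L] [NumberField L]
variable (G : Type) [Group G] [MulSemiringAction G L]

section Herbrand

variable [Fintype G]

/-- **Herbrand quotient of the `S`-ideles**: if the integral units at the primes outside `S`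
have trivial Tate cohomology, the Herbrand quotient of `J_{L,S}` is the product of the Herbrand
quotients of the local factors at the places in `S ∪ {∞}`. -/
theorem herbrandCycMul_sIdeles (s : G) (S : Finset Nat.Primes)
    (hU : ∀ q : Nat.Primes, q ∉ S → HerbrandTrivialOn G s (locIntUnits L q))
    (hfin : ∀ q ∈ S, CycFinMul G (LocAlg L q)ˣ s) (harch : CycFinMul G (ArchAlg L)ˣ s) :
    CycFinMul G (FirstIneq.sIdeles L (S : Set Nat.Primes)) s ∧
      herbrandCycMul G (FirstIneq.sIdeles L (S : Set Nat.Primes)) s =
        (∏ q ∈ S, herbrandCycMul G (LocAlg L q)ˣ s) * herbrandCycMul G (ArchAlg L)ˣ s := by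
  classical
  have hnone : (none : RatPlace) ∉ S.map ⟨some, Option.some_injective _⟩ := by
    intro h
    obtain ⟨q, -, hq⟩ := Finset.mem_map.mp h
    exact absurd hq (by simp)
  have hU' : ∀ i : RatPlace, i ∉ insert none (S.map ⟨some, Option.some_injective _⟩) →
      HerbrandTrivialOn G s (placeIntUnits L i) := by
    intro i hi
    cases i with
    | none => exact absurd (Finset.mem_insert_self _ _) hi
    | some q =>
      refine hU q (fun hq => hi ?_)
      exact Finset.mem_insert_of_mem (Finset.mem_map.mpr ⟨q, hq, rfl⟩)
  have hfin' : ∀ i ∈ insert none (S.map ⟨some, Option.some_injective _⟩),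
      CycFinMul G (PlaceAlg L i)ˣ s := by
    intro i hi
    rw [Finset.mem_insert] at hi
    rcases hi with rfl | hi
    · exact harch
    · obtain ⟨q, hq, rfl⟩ := Finset.mem_map.mp hi
      exact hfin q hq
  obtain ⟨h1, h2⟩ := (isRestrictedProd_idele L G).herbrandCycMul_sub s
    (insert none (S.map ⟨some, Option.some_injective _⟩))
    (FirstIneq.sIdeles L (S : Set Nat.Primes)) (mem_sIdeles_iff L S)
    (fun g x => rfl) hU' hfin'
  refine ⟨h1, ?_⟩
  rw [h2, Finset.prod_insert hnone, Finset.prod_map, mul_comm]
  rfl

end Herbrand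

/-- The projection of the ideles onto a local factor, as a morphism of representations. -/
def ideleProjHom (i : RatPlace) :
    ideleRep L G ⟶ Rep.ofMulDistribMulAction G (PlaceAlg L i)ˣ :=
  (isRestrictedProd_idele L G).projHom i

@[simp] theorem ideleProjHom_apply (i : RatPlace) (x : Additive (Idele L)) :
    (ideleProjHom L G i).hom x = Additive.ofMul (ideleProj L i x.toMul) := rfl

section Coh

variable [Finite G]

/-- **`H¹(G, J_L) = 0`**, provided `H¹(G, (PlaceAlg L i)ˣ) = 0` at all rational places and
`H¹(G, locIntUnits L q) = 0` at almost all primes. -/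
theorem isZero_H1_idele
    (hM : ∀ i : RatPlace, H1TrivialOn G (⊤ : Subgroup (PlaceAlg L i)ˣ))
    (hU : {q : Nat.Primes | ¬ H1TrivialOn G (locIntUnits L q)}.Finite) :
    CategoryTheory.Limits.IsZero (groupCohomology (ideleRep L G) 1) := by
  refine (isRestrictedProd_idele L G).isZero_H1 hM ?_
  refine (hU.image some).subset (fun i hi => ?_)
  cases i with
  | none =>
    exfalso
    apply hi
    intro f hf _
    obtain ⟨x, -, hx⟩ := hM none f hf (fun _ => Subgroup.mem_top _)
    exact ⟨x, Subgroup.mem_top _, hx⟩
  | some q => exact ⟨q, hi, rfl⟩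

omit [Finite G] in
/-- The set of rational places where the integral units have nontrivial `H²` is finite as soon
as this holds at the level of primes. -/
theorem finite_not_h2TrivialOn
    (hU : {q : Nat.Primes | ¬ H2TrivialOn G (locIntUnits L q)}.Finite) :
    {i : RatPlace | ¬ H2TrivialOn G (placeIntUnits L i)}.Finite := by
  refine ((hU.image some).union (Set.finite_singleton none)).subset (fun i hi => ?_)
  cases i with
  | none => exact Or.inr rfl
  | some q => exact Or.inl ⟨q, hi, rfl⟩

/-- **Injectivity of `H²(G, J_L) → ∏_i H²(G, (PlaceAlg L i)ˣ)`.** -/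
theorem H2_idele_ext
    (hU : {q : Nat.Primes | ¬ H2TrivialOn G (locIntUnits L q)}.Finite)
    (x : groupCohomology (ideleRep L G) 2)
    (hx : ∀ i, groupCohomology.map (MonoidHom.id G) (ideleProjHom L G i) 2 x = 0) : x = 0 :=
  (isRestrictedProd_idele L G).H2_ext (finite_not_h2TrivialOn L G hU) x hx

/-- **Finite support of the local components of a class in `H²(G, J_L)`.** -/
theorem H2_idele_finite_support
    (hU : {q : Nat.Primes | ¬ H2TrivialOn G (locIntUnits L q)}.Finite)
    (x : groupCohomology (ideleRep L G) 2) :
    {i | groupCohomology.map (MonoidHom.id G) (ideleProjHom L G i) 2 x ≠ 0}.Finite :=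
  (isRestrictedProd_idele L G).H2_finite_support (finite_not_h2TrivialOn L G hU) x

omit [Finite G] in
/-- **Every finitely supported family of local classes comes from `H²(G, J_L)`.** -/
theorem H2_idele_exists
    (y : ∀ i : RatPlace, groupCohomology (Rep.ofMulDistribMulAction G (PlaceAlg L i)ˣ) 2)
    (hy : {i | y i ≠ 0}.Finite) :
    ∃ x : groupCohomology (ideleRep L G) 2,
      ∀ i, groupCohomology.map (MonoidHom.id G) (ideleProjHom L G i) 2 x = y i :=
  (isRestrictedProd_idele L G).H2_exists y hy

end Coh

end Fermat.Agent.Lib.CFT.Global.CohIdeles
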