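import Mathlib
import Fermat.Agent.Lib.CFT.Global.EtaleAlgCoh
import Fermat.Agent.Lib.CFT.Coh.SubgroupTriv

/-!
# Subgroups of units of a `G`-algebra determined by their local components

helper58 (P-CFT, Global/CohIdeles, part D2).  In helper75's setting (`G` acting on a commutative
ring `E`, `r : ι → MaximalSpectrum E` meeting every orbit), a `G`-stable subgroup `U ≤ Eˣ` which is
determined by its local components `locComponent U m = U.map (redUnits m) ≤ (E ⧸ m)ˣ` is the
subgroup underlying helper75's `unitsSubmodule r W` for `W i = locComponent U (r i)`.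
-/

set_option autoImplicit false

namespace Fermat.Agent.Lib.CFT.Global.CohIdeles

open Fermat.Agent.Lib.CFT.Global.EtaleAlg
open scoped Pointwise

attribute [local instance] Units.mulDistribMulActionRight

variable {G E : Type} [Group G] [CommRing E] [MulSemiringAction G E]

/-- The local component at `m` of a subgroup of units. -/
noncomputable def locComponent (U : Subgroup Eˣ) (m : MaximalSpectrum E) :
    Subgroup (E ⧸ m.asIdeal)ˣ :=
  U.map (redUnits m)

omit [Group G] [MulSemiringAction G E] in
theorem mem_locComponent_iff (U : Subgroup Eˣ) (m : MaximalSpectrum E) (x : (E ⧸ m.asIdeal)ˣ) :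
    x ∈ locComponent U m ↔ ∃ y ∈ U, redUnits m y = x := Iff.rfl

omit [Group G] [MulSemiringAction G E] in
theorem redUnits_eq_iff (m : MaximalSpectrum E) (a b : Eˣ) :
    redUnits m a = redUnits m b ↔ (a : E) - b ∈ m.asIdeal := by
  rw [Units.ext_iff, coe_redUnits, coe_redUnits, Ideal.Quotient.eq]

variable {ι : Type} (r : ι → MaximalSpectrum E)

/-- The local components at the representatives `r i`, as submodules (helper75's format). -/
noncomputable def locW (U : Subgroup Eˣ) (i : ι) : Submodule ℤ (Additive (E ⧸ (r i).asIdeal)ˣ) :=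
  (Subgroup.toAddSubgroup (locComponent U (r i))).toIntSubmodule

omit [Group G] [MulSemiringAction G E] in
theorem mem_locW_iff (U : Subgroup Eˣ) (i : ι) (x : Additive (E ⧸ (r i).asIdeal)ˣ) :
    x ∈ locW r U i ↔ x.toMul ∈ locComponent U (r i) := Iff.rfl

/-- The local components of a `G`-stable subgroup are stable under the decomposition groups. -/
theorem locW_stable (U : Subgroup Eˣ) (hUG : ∀ (g : G) (u : Eˣ), u ∈ U → g • u ∈ U) (i : ι)
    (s : MulAction.stabilizer G (r i)) :
    locW r U i ≤ (locW r U i).comap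
      (Representation.ofMulDistribMulAction (MulAction.stabilizer G (r i))
        (E ⧸ (r i).asIdeal)ˣ s) := by
  intro x hx
  rw [mem_locW_iff, mem_locComponent_iff] at hx
  obtain ⟨y, hyU, hy⟩ := hx
  rw [Submodule.mem_comap, mem_locW_iff, mem_locComponent_iff]
  refine ⟨(s : G) • y, hUG _ _ hyU, ?_⟩
  rw [redUnits_stab_smul, hy]
  rfl

/-- A `G`-stable subgroup of units determined by its local components is the subgroup underlying
`unitsSubmodule r W` for `W i` its local component at `r i`. -/
theorem mem_unitsSubmodule_locW_iff (U : Subgroup Eˣ)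
    (hUG : ∀ (g : G) (u : Eˣ), u ∈ U → g • u ∈ U)
    (hUloc : ∀ u : Eˣ, (∀ m : MaximalSpectrum E, redUnits m u ∈ locComponent U m) → u ∈ U)
    (hcov : ∀ m : MaximalSpectrum E, ∃ i, ∃ g : G, g • m = r i) (u : Eˣ) :
    Additive.ofMul u ∈ unitsSubmodule (G := G) r (locW r U) ↔ u ∈ U := by
  rw [mem_unitsSubmodule]
  constructor
  · intro h
    apply hUloc
    intro m
    obtain ⟨i, g, hg⟩ := hcov m
    have h1 := h i g
    rw [mem_locW_iff, toMul_ofMul, toMul_ofMul, mem_locComponent_iff] at h1
    obtain ⟨y, hyU, hy⟩ := h1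
    rw [redUnits_eq_iff, ← hg, mem_smul_asIdeal_iff] at hy
    rw [mem_locComponent_iff]
    refine ⟨g⁻¹ • y, hUG _ _ hyU, ?_⟩
    rw [redUnits_eq_iff]
    have h2 : g⁻¹ • ((y : E) - ((g • u : Eˣ) : E)) = ((g⁻¹ • y : Eˣ) : E) - (u : E) := by
      rw [smul_sub]
      congr 1
      show g⁻¹ • (g • (u : E)) = (u : E)
      rw [inv_smul_smul]
    rw [← h2]
    exact hy
  · intro hu i g
    rw [mem_locW_iff, toMul_ofMul, toMul_ofMul, mem_locComponent_iff]
    exact ⟨g • u, hUG g u hu, rfl⟩

end Fermat.Agent.Lib.CFT.Global.CohIdeles
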