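import Mathlib
import Fermat.Agent.Lib.CFT.Global.Places.LocAlgUnits
import Fermat.Agent.Lib.CFT.Global.Places.GaloisLocal
import Fermat.Agent.Lib.CFT.Global.CohIdeles.LocalSubgroup

/-!
# Decomposition groups of the maximal ideals of `ℚ_q ⊗ L` (P-CFT, Global/CohIdeles, part D2)

helper58.  Built on helper94's `Places/GaloisLocal.lean` (equivariance of
`primesEquivMaximalSpectrum`, `stabilizer_primesEquiv`):

* `decompEquiv`: the decomposition group of the maximal ideal `maxIdeal L q v` of `LocAlg L q`
  (helper75's conventions) is the decomposition group of the prime `v` of `𝓞 L`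
  (helper94's conventions), as a `MulEquiv`;
* `toResidue`, `toResidue_smul`: the map `localInt L q v → LocAlg L q ⧸ (maximal ideal)` is
  equivariant.
-/

set_option autoImplicit false

open scoped TensorProduct NumberField Pointwise

noncomputable section

namespace Fermat.Agent.Lib.CFT.Global.CohIdeles

open Fermat.Agent.Lib.CFT.Global Fermat.Agent.Lib.CFT.Global.Places
open Fermat.Agent.Lib.CFT.Global.Places.Galois Fermat.Agent.Lib.CFT.Global.EtaleAlg

variable {L : Type} [Field L] [NumberField L] {G : Type} [Group G] [MulSemiringAction G L]
  {q : Nat.Primes}

/-- Shortcut instance: the decomposition group of a maximal ideal of `ℚ_q ⊗ L` acts on the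
residue field (instance search is otherwise slow). -/
scoped instance (priority := high) residueSMulLocAlg (m : MaximalSpectrum (LocAlg L q)) :
    SMul (MulAction.stabilizer G m) (LocAlg L q ⧸ m.asIdeal) :=
  (residueAction m).toSMul

/-- The decomposition group of the maximal ideal attached to `v` is the decomposition group of
the prime `v`. -/
def decompEquiv (v : PrimesOver L q) :
    MulAction.stabilizer G (primesEquivMaximalSpectrum L q v) ≃*
      MulAction.stabilizer G v.1.asIdeal :=
  MulEquiv.subgroupCongr (stabilizer_primesEquiv q v)

@[simp] theorem coe_decompEquiv (v : PrimesOver L q)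
    (g : MulAction.stabilizer G (primesEquivMaximalSpectrum L q v)) :
    ((decompEquiv v g : MulAction.stabilizer G v.1.asIdeal) : G) = g := rfl

/-- The map from the completed local ring to the local field, with target written as the residue
field of `LocAlg L q` at the maximal ideal `primesEquivMaximalSpectrum L q v` (helper75's
format). -/
def toResidue (v : PrimesOver L q) :
    localInt L q v →+* LocAlg L q ⧸ (primesEquivMaximalSpectrum L q v).asIdeal :=
  (toLocalField L q v).toRingHom

theorem toResidue_mk (v : PrimesOver L q) (a : Ohat (𝓞 L) (pv q)) :
    toResidue v (Ideal.Quotient.mk _ a) =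
      Ideal.Quotient.mk (primesEquivMaximalSpectrum L q v).asIdeal (toLocAlg L q a) := rfl

theorem toResidue_injective (v : PrimesOver L q) : Function.Injective (toResidue (L := L) v) :=
  toLocalField_injective v

/-- The map from the completed local ring to the local field is equivariant for the
decomposition group. -/
theorem toResidue_smul (v : PrimesOver L q)
    (g : MulAction.stabilizer G (primesEquivMaximalSpectrum L q v)) (a : localInt L q v) :
    toResidue v (decompEquiv v g • a) = g • toResidue v a := by
  obtain ⟨a, rfl⟩ := Ideal.Quotient.mk_surjective a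
  rw [stabilizer_smul_mk, toResidue_mk, toResidue_mk]
  change _ = Ideal.Quotient.mk _ (((g : G)) • toLocAlg L q a)
  rw [coe_decompEquiv, toLocAlg_smul]

/-- The induced map on units. -/
def unitsToResidue (v : PrimesOver L q) :
    (localInt L q v)ˣ →* (LocAlg L q ⧸ (primesEquivMaximalSpectrum L q v).asIdeal)ˣ :=
  Units.map (toResidue v).toMonoidHom

@[simp] theorem coe_unitsToResidue (v : PrimesOver L q) (a : (localInt L q v)ˣ) :
    ((unitsToResidue v a : (LocAlg L q ⧸ (primesEquivMaximalSpectrum L q v).asIdeal)ˣ) :
      LocAlg L q ⧸ (primesEquivMaximalSpectrum L q v).asIdeal) = toResidue v (a : localInt L q v) :=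
  rfl

theorem unitsToResidue_injective (v : PrimesOver L q) :
    Function.Injective (unitsToResidue (L := L) v) :=
  Units.map_injective (toResidue_injective v)

attribute [local instance] Units.mulDistribMulActionRight in
theorem unitsToResidue_smul (v : PrimesOver L q)
    (g : MulAction.stabilizer G (primesEquivMaximalSpectrum L q v)) (a : (localInt L q v)ˣ) :
    unitsToResidue v (decompEquiv v g • a) = g • unitsToResidue v a :=
  Units.ext (toResidue_smul v g a)

end Fermat.Agent.Lib.CFT.Global.CohIdeles
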