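import Mathlib
import Fermat.Agent.Lib.CFT.Global.CohIdeles.PlacesAction
import Fermat.Agent.Lib.CFT.Global.CohIdeles.Basic
import Fermat.Agent.Lib.CFT.Global.EtaleAlgSubUnitsTriv
import Fermat.Agent.Lib.CFT.Global.Places.UnramLocalInt
import Fermat.Agent.Lib.CFT.Coh.SubrepTransport

/-!
# The integral units at a rational prime: from local to semi-local triviality
(P-CFT, Global/CohIdeles, part D2)

helper58.

Generic part (`G` acting on a commutative ring `E`, `U ≤ Eˣ` a `G`-stable subgroup determined by
its local components): `locRepAt U m hW` is the local component of `U` at the maximal ideal `m`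
as a module over the decomposition group of `m`;
`isZero_groupCohomology_subRepOf_of_local`: if all `Hⁿ(G_m, locRepAt U m)` vanish then
`Hⁿ(G, U) = 0` (helper75's semi-local Shapiro lemma).

For a rational prime `q` and a finite group `G` acting on the number field `L`:

* `isZero_groupCohomology_locIntUnits_of_forall`: if for every prime `w` of `𝓞 L` above `q` the
  units of the completed local ring `localInt L q w` have trivial `Hⁿ` for the decomposition
  group of `w`, then `Hⁿ(G, locIntUnits L q) = 0`;
* `isZero_groupCohomology_locIntUnits`: this holds for all `n ≥ 1` when all inertia groups at `q`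
  are trivial (helper84's `Places/UnramLocalInt.lean`);
* `locIntUnits_h1TrivialOn`, `locIntUnits_h2TrivialOn`, `locIntUnits_herbrandTrivialOn`: the
  elementary forms, which are the hypotheses of `Global/CohIdeles/Basic.lean`.
-/

set_option autoImplicit false

open scoped TensorProduct NumberField Pointwise

noncomputable section

namespace Fermat.Agent.Lib.CFT.Global.CohIdeles

open Fermat.Agent.Lib.CFT.Global Fermat.Agent.Lib.CFT.Global.Places
open Fermat.Agent.Lib.CFT.Global.Places.Galois Fermat.Agent.Lib.CFT.Global.EtaleAlg
open Fermat.Agent.Lib.CFT.Coh.RestrictedProd Fermat.Agent.Lib.CFT.Global.EtaleAlgSubUnitsTriv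
open CategoryTheory CategoryTheory.Limits

attribute [local instance] Units.mulDistribMulActionRight

/-! ### Generic part -/

section Generic

variable {G E : Type} [Group G] [CommRing E] [MulSemiringAction G E]

/-- The local component of a subgroup of units at `m`, as a submodule. -/
def locWAt (U : Subgroup Eˣ) (m : MaximalSpectrum E) :
    Submodule ℤ (Additive (E ⧸ m.asIdeal)ˣ) :=
  (Subgroup.toAddSubgroup (locComponent U m)).toIntSubmodule

omit [Group G] [MulSemiringAction G E] in
theorem mem_locWAt_iff (U : Subgroup Eˣ) (m : MaximalSpectrum E)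
    (x : Additive (E ⧸ m.asIdeal)ˣ) : x ∈ locWAt U m ↔ x.toMul ∈ locComponent U m := Iff.rfl

variable (G) in
/-- The local component at `m` is stable under the decomposition group of `m`. -/
def LocWAtStable (U : Subgroup Eˣ) (m : MaximalSpectrum E) : Prop :=
  ∀ s : MulAction.stabilizer G m, locWAt U m ≤ (locWAt U m).comap
    (Representation.ofMulDistribMulAction (MulAction.stabilizer G m) (E ⧸ m.asIdeal)ˣ s)

theorem locWAtStable_of_stable (U : Subgroup Eˣ)
    (hUG : ∀ (g : G) (u : Eˣ), u ∈ U → g • u ∈ U) (m : MaximalSpectrum E) :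
    LocWAtStable G U m :=
  locW_stable (fun _ : Unit => m) U hUG ()

/-- The local component of `U` at `m`, as a module over the decomposition group of `m`. -/
def locRepAt (U : Subgroup Eˣ) (m : MaximalSpectrum E) (hW : LocWAtStable G U m) :
    Rep ℤ (MulAction.stabilizer G m) :=
  Rep.of ((Representation.ofMulDistribMulAction (MulAction.stabilizer G m)
    (E ⧸ m.asIdeal)ˣ).subrepresentation (locWAt U m) hW)

/-- If the local component of `U` at `m` is the isomorphic image of a `G'`-module `M`, compatibly
with an isomorphism of the decomposition group of `m` with `G'`, then the vanishing of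
`Hⁿ(G', M)` implies the vanishing of `Hⁿ(G_m, locRepAt U m)`. -/
theorem isZero_groupCohomology_locRepAt {G' M : Type} [Group G'] [CommGroup M]
    [MulDistribMulAction G' M] (U : Subgroup Eˣ) (m : MaximalSpectrum E)
    (hW : LocWAtStable G U m) (e : MulAction.stabilizer G m ≃* G') (φ : M →* (E ⧸ m.asIdeal)ˣ)
    (hφ : Function.Injective φ)
    (hsmul : ∀ (g : MulAction.stabilizer G m) (a : M), φ (e g • a) = g • φ a)
    (hU : ∀ x : (E ⧸ m.asIdeal)ˣ, x ∈ locComponent U m ↔ ∃ a : M, φ a = x) (n : ℕ)
    (h : IsZero (groupCohomology (Rep.ofMulDistribMulAction G' M) n)) :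
    IsZero (groupCohomology (locRepAt U m hW) n) :=
  Coh.SubrepTransport.isZero_subrep_of_mulEquiv e φ hsmul (locWAt U m) hW
    (fun x => by rw [mem_locWAt_iff, hU]) hφ n h

/-- **Semi-local Shapiro lemma for a stable subgroup of units determined by its local
components**: if all local components have trivial `Hⁿ` for the decomposition groups, then
`Hⁿ(G, U) = 0`.  Stated for any presentation `N` of `U` as a submodule. -/
theorem isZero_groupCohomology_subRepOf_of_local [IsArtinianRing E] [IsReduced E] [Finite G]
    (U : Subgroup Eˣ) (hUG : ∀ (g : G) (u : Eˣ), u ∈ U → g • u ∈ U)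
    (hUloc : ∀ u : Eˣ, (∀ m : MaximalSpectrum E, redUnits m u ∈ locComponent U m) → u ∈ U)
    (n : ℕ)
    (h : ∀ (m : MaximalSpectrum E) (hW : LocWAtStable G U m),
      IsZero (groupCohomology (locRepAt U m hW) n))
    (N : Submodule ℤ (Additive Eˣ))
    (hN : ∀ g : G, N ≤ N.comap (Representation.ofMulDistribMulAction G Eˣ g))
    (hNU : ∀ x : Eˣ, x ∈ U ↔ Additive.ofMul x ∈ N) :
    IsZero (groupCohomology (subRepOf N hN) n) := by
  classical
  have : Fintype (MulAction.orbitRel.Quotient G (MaximalSpectrum E)) := Fintype.ofFinite _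
  have hcov := orbitRep_cov G E
  have hsep := orbitRep_sep G E
  have hW := locW_stable (orbitRep G E) U hUG
  have hNeq : N = unitsSubmodule (G := G) (orbitRep G E) (locW (orbitRep G E) U) := by
    ext x
    have h1 := hNU x.toMul
    have h2 := mem_unitsSubmodule_locW_iff (orbitRep G E) U hUG hUloc hcov x.toMul
    rw [ofMul_toMul] at h1 h2
    rw [← h1, h2]
  subst hNeq
  exact isZero_groupCohomology_subUnits_of_forall G (orbitRep G E) (locW (orbitRep G E) U) hW
    hcov hsep n (fun i => h (orbitRep G E i) (hW i))

end Generic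

/-! ### The integral units of `ℚ_q ⊗ L` -/

variable {L : Type} [Field L] [NumberField L] {G : Type} [Group G] [MulSemiringAction G L]
  {q : Nat.Primes}

/-- Reduction modulo the maximal ideal attached to `w` is the `w`-component of
`locAlgUnitsEquivPi`. -/
theorem redUnits_eq_locAlgUnitsEquivPi (w : PrimesOver L q) (u : (LocAlg L q)ˣ) :
    redUnits (primesEquivMaximalSpectrum L q w) u = locAlgUnitsEquivPi L q u w :=
  Units.ext rfl

/-- The local component of `locIntUnits L q` at the maximal ideal attached to `w` is the image
of the units of the completed local ring. -/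
theorem mem_locComponent_locIntUnits_iff (w : PrimesOver L q)
    (x : (LocAlg L q ⧸ (primesEquivMaximalSpectrum L q w).asIdeal)ˣ) :
    x ∈ locComponent (locIntUnits L q) (primesEquivMaximalSpectrum L q w) ↔
      ∃ a : (localInt L q w)ˣ, unitsToResidue w a = x := by
  classical
  rw [mem_locComponent_iff]
  constructor
  · rintro ⟨y, hy, rfl⟩
    have h1 := (mem_locIntUnits_iff_forall_mem y).mp hy w
    obtain ⟨a, ha⟩ := (mem_localIntUnits_iff w _).mp h1
    refine ⟨a, Units.ext ?_⟩
    rw [redUnits_eq_locAlgUnitsEquivPi]
    exact ha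
  · rintro ⟨a, rfl⟩
    have key : ∀ z : (localField L q w)ˣ, z ∈ localIntUnits L q w →
        ∃ y ∈ locIntUnits L q, locAlgUnitsEquivPi L q y w = z := by
      intro z hz
      refine ⟨(locAlgUnitsEquivPi L q).symm (Pi.mulSingle w z), ?_, ?_⟩
      · rw [mem_locIntUnits_iff_forall_mem]
        intro v
        rw [MulEquiv.apply_symm_apply]
        by_cases hv : v = w
        · subst hv
          rw [Pi.mulSingle_eq_same]
          exact hz
        · rw [Pi.mulSingle_eq_of_ne hv]
          exact one_mem _
      · rw [MulEquiv.apply_symm_apply, Pi.mulSingle_eq_same]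
    obtain ⟨y, hy, hyz⟩ := key (unitsToResidue w a) ((mem_localIntUnits_iff w _).mpr ⟨a, rfl⟩)
    exact ⟨y, hy, (redUnits_eq_locAlgUnitsEquivPi w y).trans hyz⟩

variable (L q) in
/-- `locIntUnits L q` is determined by its local components. -/
theorem locIntUnits_local (u : (LocAlg L q)ˣ)
    (h : ∀ m : MaximalSpectrum (LocAlg L q),
      redUnits m u ∈ locComponent (locIntUnits L q) m) : u ∈ locIntUnits L q := by
  rw [mem_locIntUnits_iff_forall_mem]
  intro w
  obtain ⟨y, hy, hyu⟩ := (mem_locComponent_iff _ _ _).mp (h (primesEquivMaximalSpectrum L q w))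
  rw [← redUnits_eq_locAlgUnitsEquivPi, ← hyu, redUnits_eq_locAlgUnitsEquivPi]
  exact (mem_locIntUnits_iff_forall_mem y).mp hy w

variable (G) in
/-- The units of the completed local ring at `w`, as a module over the decomposition group
(helper84's format). -/
abbrev localUnitsRep (w : PrimesOver L q) : Rep ℤ (MulAction.stabilizer G w.1.asIdeal) :=
  Rep.ofMulDistribMulAction (MulAction.stabilizer G w.1.asIdeal) (localInt L q w)ˣ

/-- Transport of local vanishing to helper75's conventions, at any maximal ideal. -/
theorem isZero_groupCohomology_locRepAt_locIntUnits (n : ℕ)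
    (h : ∀ w : PrimesOver L q, IsZero (groupCohomology (localUnitsRep G w) n))
    (m : MaximalSpectrum (LocAlg L q)) (hW : LocWAtStable G (locIntUnits L q) m) :
    IsZero (groupCohomology (locRepAt (locIntUnits L q) m hW) n) := by
  obtain ⟨w, rfl⟩ := (primesEquivMaximalSpectrum L q).surjective m
  exact isZero_groupCohomology_locRepAt (locIntUnits L q) (primesEquivMaximalSpectrum L q w) hW
    (decompEquiv w) (unitsToResidue w) (unitsToResidue_injective w)
    (fun g a => unitsToResidue_smul w g a) (mem_locComponent_locIntUnits_iff w) n (h w)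

/-! ### The semi-local module -/

variable (L q) in
/-- The `ℤ`-submodule of `Additive (LocAlg L q)ˣ` underlying `locIntUnits L q`. -/
def locIntUnitsSubmodule : Submodule ℤ (Additive (LocAlg L q)ˣ) :=
  (Subgroup.toAddSubgroup (locIntUnits L q)).toIntSubmodule

theorem mem_locIntUnitsSubmodule_iff (x : Additive (LocAlg L q)ˣ) :
    x ∈ locIntUnitsSubmodule L q ↔ x.toMul ∈ locIntUnits L q := Iff.rfl

variable (L G q) in
theorem locIntUnitsSubmodule_le_comap (g : G) :
    locIntUnitsSubmodule L q ≤ (locIntUnitsSubmodule L q).comap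
      (Representation.ofMulDistribMulAction G (LocAlg L q)ˣ g) :=
  fun _ hx => smul_mem_locIntUnits L G q g hx

variable (L G q) in
/-- The `G`-module `locIntUnits L q`, as a subrepresentation of `Additive (LocAlg L q)ˣ`. -/
abbrev locIntUnitsRep : Rep ℤ G :=
  subRepOf (locIntUnitsSubmodule L q) (locIntUnitsSubmodule_le_comap L G q)

/-- **Semi-local Shapiro for the integral units**: if the units of the completed local rings at
the primes above `q` have trivial `Hⁿ` for the decomposition groups, then
`Hⁿ(G, locIntUnits L q) = 0`.  Stated for any presentation `N` of `locIntUnits L q` as a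
submodule. -/
theorem isZero_groupCohomology_subRepOf_locIntUnits [Finite G] (n : ℕ)
    (h : ∀ w : PrimesOver L q, IsZero (groupCohomology (localUnitsRep G w) n))
    (N : Submodule ℤ (Additive (LocAlg L q)ˣ))
    (hN : ∀ g : G, N ≤ N.comap (Representation.ofMulDistribMulAction G (LocAlg L q)ˣ g))
    (hNU : ∀ x : (LocAlg L q)ˣ, x ∈ locIntUnits L q ↔ Additive.ofMul x ∈ N) :
    IsZero (groupCohomology (subRepOf N hN) n) :=
  isZero_groupCohomology_subRepOf_of_local (locIntUnits L q)
    (fun g _ hu => smul_mem_locIntUnits L G q g hu) (locIntUnits_local L q) n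
    (isZero_groupCohomology_locRepAt_locIntUnits n h) N hN hNU

/-- `Hⁿ(G, locIntUnits L q) = 0` from local vanishing. -/
theorem isZero_groupCohomology_locIntUnits_of_forall [Finite G] (n : ℕ)
    (h : ∀ w : PrimesOver L q, IsZero (groupCohomology (localUnitsRep G w) n)) :
    IsZero (groupCohomology (locIntUnitsRep L G q) n) :=
  isZero_groupCohomology_subRepOf_locIntUnits n h _ _ (fun _ => Iff.rfl)

/-! ### Unramified primes -/

/-- **The integral units at an unramified rational prime have trivial cohomology** in every
positive degree (any presentation as a submodule). -/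
theorem isZero_groupCohomology_subRepOf_locIntUnits_of_inertia [Finite G]
    (h : ∀ w : PrimesOver L q, Ideal.inertia G w.1.asIdeal = ⊥) (n : ℕ) [NeZero n]
    (N : Submodule ℤ (Additive (LocAlg L q)ˣ))
    (hN : ∀ g : G, N ≤ N.comap (Representation.ofMulDistribMulAction G (LocAlg L q)ˣ g))
    (hNU : ∀ x : (LocAlg L q)ˣ, x ∈ locIntUnits L q ↔ Additive.ofMul x ∈ N) :
    IsZero (groupCohomology (subRepOf N hN) n) :=
  isZero_groupCohomology_subRepOf_locIntUnits n
    (fun w => isZero_groupCohomology_units_localInt w (h w) n) N hN hNU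

/-- **The integral units at an unramified rational prime have trivial cohomology** in every
positive degree. -/
theorem isZero_groupCohomology_locIntUnits [Finite G]
    (h : ∀ w : PrimesOver L q, Ideal.inertia G w.1.asIdeal = ⊥) (n : ℕ) [NeZero n] :
    IsZero (groupCohomology (locIntUnitsRep L G q) n) :=
  isZero_groupCohomology_locIntUnits_of_forall n
    (fun w => isZero_groupCohomology_units_localInt w (h w) n)

/-- `H¹`: elementary form. -/
theorem locIntUnits_h1TrivialOn [Finite G]
    (h : ∀ w : PrimesOver L q, Ideal.inertia G w.1.asIdeal = ⊥) :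
    H1TrivialOn G (locIntUnits L q) :=
  h1TrivialOn_of_isZero (locIntUnitsSubmodule L q) (locIntUnitsSubmodule_le_comap L G q)
    (locIntUnits L q) (fun _ => Iff.rfl) (isZero_groupCohomology_locIntUnits h 1)

/-- `H²`: elementary form. -/
theorem locIntUnits_h2TrivialOn [Finite G]
    (h : ∀ w : PrimesOver L q, Ideal.inertia G w.1.asIdeal = ⊥) :
    H2TrivialOn G (locIntUnits L q) :=
  h2TrivialOn_of_isZero (locIntUnitsSubmodule L q) (locIntUnitsSubmodule_le_comap L G q)
    (locIntUnits L q) (fun _ => Iff.rfl) (isZero_groupCohomology_locIntUnits h 2)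

/-- Cyclic `G = ⟨s⟩`: `U^G = N U` and `U[N] = (s - 1) U` for `U = locIntUnits L q` at an
unramified prime. -/
theorem locIntUnits_herbrandTrivialOn [Fintype G] (s : G) (hs : ∀ x, x ∈ Subgroup.zpowers s)
    (h : ∀ w : PrimesOver L q, Ideal.inertia G w.1.asIdeal = ⊥) :
    HerbrandTrivialOn G s (locIntUnits L q) :=
  herbrandTrivialOn_of_isZero (locIntUnitsSubmodule L q) (locIntUnitsSubmodule_le_comap L G q)
    (locIntUnits L q) (fun _ => Iff.rfl) s hs (isZero_groupCohomology_locIntUnits h 1)
    (isZero_groupCohomology_locIntUnits h 2)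

end Fermat.Agent.Lib.CFT.Global.CohIdeles
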