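import Mathlib
import Fermat.Agent.Lib.CFT.Global.CohIdeles.UnramUnits
import Fermat.Agent.Lib.CFT.Global.FirstIneqFinal
import Fermat.Agent.Lib.CFT.Global.SecondIneq.Instance.Final

/-!
# (D2) closed: the first and second inequalities, unconditionally
(P-CFT, Global/CohIdeles)

helper58.  `unramHerbrandTrivial` discharges the hypothesis `UnramHerbrandTrivial` of helper39's
`Global/FirstIneqFinal.lean` from `Global/CohIdeles/UnramUnits.lean`; the consequences of
helper39 (`FirstIneqFinal`) and helper31 (`SecondIneq/Instance/Final`) become unconditional.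
-/

set_option autoImplicit false

open scoped NumberField

noncomputable section

namespace Fermat.Agent.Lib.CFT.Global.CohIdeles

open Fermat.Agent.Lib.CFT.Global Fermat.Agent.Lib.CFT.Global.SecondIneq.Consequences
  Fermat.Agent.Lib.CFT.Global.SecondIneq.Instance

/-- **(D2)**: the integral units at a rational prime with trivial inertia groups have trivial
Tate cohomology for a finite cyclic group of automorphisms. -/
theorem unramHerbrandTrivial : FirstIneqFinal.UnramHerbrandTrivial := by
  intro L _ _ G _ _ _ _ s hs q h
  exact locIntUnits_herbrandTrivialOn s hs (fun w => h w.1 w.2)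

/-- **First inequality, Herbrand quotient form**: `h(C_L) = [L : K]` for cyclic layers. -/
theorem firstIneqHerbrand : FirstIneqHerbrand :=
  FirstIneqFinal.firstIneqHerbrand unramHerbrandTrivial

/-- **First inequality, index form**, for all cyclic layers of prime degree. -/
theorem firstIneqAll : FirstIneqAll :=
  firstIneqAll_of_herbrand firstIneqHerbrand

/-- **Second inequality** for all Galois layers of prime degree. -/
theorem secondIneqPrime : SecondIneqPrime :=
  SecondIneq.Instance.secondIneqPrime firstIneqAll

/-- Every Galois layer of prime degree is good (`H¹ = 0`, `|H²| ∣ [L : K]`). -/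
theorem primeLayersGood : PrimeLayersGood :=
  primeLayersGood_of_herbrand firstIneqHerbrand

section Index

variable (K L : Type) [Field K] [NumberField K] [Field L] [NumberField L] [Algebra K L]
  [IsGalois K L]

/-- **First inequality**: `[L : K]` divides `[J_K : Kˣ N_{L/K} J_L]` for a cyclic extension. -/
theorem finrank_dvd_index [IsCyclic (L ≃ₐ[K] L)] :
    Module.finrank K L ∣ ((principal K).range ⊔ (ideleNorm K L).range).index :=
  FirstIneqFinal.finrank_dvd_index K L unramHerbrandTrivial

/-- If `Kˣ N_{L/K} J_L = J_K` for a cyclic extension `L / K`, then `L = K`. -/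
theorem finrank_eq_one_of_sup_eq_top [IsCyclic (L ≃ₐ[K] L)]
    (h : (principal K).range ⊔ (ideleNorm K L).range = ⊤) : Module.finrank K L = 1 :=
  FirstIneqFinal.finrank_eq_one_of_sup_eq_top K L unramHerbrandTrivial h

/-- **Second inequality**: `[J_K : Kˣ N_{L/K} J_L]` divides `p` for `L / K` Galois of prime
degree `p`. -/
theorem index_dvd_prime {p : ℕ} (hp : p.Prime) (hdeg : Module.finrank K L = p) :
    ((principal K).range ⊔ (ideleNorm K L).range).index ∣ p :=
  second_inequality firstIneqAll hp K L hdeg

/-- **Both inequalities**: `[J_K : Kˣ N_{L/K} J_L] = [L : K]` for `L / K` Galois of prime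
degree. -/
theorem index_eq_finrank_of_prime (hp : (Module.finrank K L).Prime) :
    ((principal K).range ⊔ (ideleNorm K L).range).index = Module.finrank K L := by
  have hcyc : IsCyclic (L ≃ₐ[K] L) := by
    have hc : Nat.card (L ≃ₐ[K] L) = Module.finrank K L := IsGalois.card_aut_eq_finrank K L
    have : Fact (Module.finrank K L).Prime := ⟨hp⟩
    exact isCyclic_of_prime_card hc
  exact Nat.dvd_antisymm (index_dvd_prime K L hp rfl) (finrank_dvd_index K L)

end Index

end Fermat.Agent.Lib.CFT.Global.CohIdeles
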