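import Mathlib
import Fermat.Agent.Lib.CFT.Global.CohIdeles.Basic
import Fermat.Agent.Lib.CFT.Global.EtaleAlgHilbert90
import Fermat.Agent.Lib.CFT.Global.Places.LocAlgDecomp
import Fermat.Agent.Lib.CFT.Global.PlacesInfinite

/-!
# Hilbert 90 for the local factors of the ideles (P-CFT, Global/CohIdeles, part D1)

helper58.  For a finite group `G` acting faithfully on the number field `L`, every `1`-cocycle of
`G` with values in `(PlaceAlg L i)ˣ` (`= (ℚ_q ⊗ L)ˣ` or `(ℝ ⊗ L)ˣ`) is a coboundary
(helper75's Hilbert 90 for finite products of fields).  Consequently `H¹(G, J_L) = 0` as soon as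
`H¹(G, locIntUnits L q) = 0` for almost all `q`.
-/

set_option autoImplicit false

open scoped TensorProduct NumberField

noncomputable section

namespace Fermat.Agent.Lib.CFT.Global.CohIdeles

open Fermat.Agent.Lib.CFT.Global Fermat.Agent.Lib.CFT.Coh.RestrictedProd
open Fermat.Agent.Lib.CFT.Global.EtaleAlg groupCohomology

variable (L : Type) [Field L] [NumberField L]

/-- `PlaceAlg L i` is Artinian. -/
instance instIsArtinianRingPlaceAlg : ∀ i : RatPlace, IsArtinianRing (PlaceAlg L i)
  | none => PlacesInfinite.isArtinianRing_archAlg L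
  | some q => Places.isArtinianRing_locAlg L q

/-- `PlaceAlg L i` is reduced. -/
instance instIsReducedPlaceAlg : ∀ i : RatPlace, IsReduced (PlaceAlg L i)
  | none => PlacesInfinite.isReduced_archAlg L
  | some q => Places.isReduced_locAlg L q

variable (G : Type) [Group G] [MulSemiringAction G L]

/-- The inclusion of `L` into `PlaceAlg L i`. -/
def placeIncl (i : RatPlace) : L →+* PlaceAlg L i :=
  (Algebra.TensorProduct.includeRight : L →ₐ[ℚ] PlaceAlg L i).toRingHom

@[simp] lemma placeIncl_apply (i : RatPlace) (x : L) :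
    placeIncl L i x = (1 : CompQ i) ⊗ₜ[ℚ] x := rfl

lemma placeIncl_smul (i : RatPlace) (g : G) (x : L) :
    placeIncl L i (g • x) = g • placeIncl L i x := by
  cases i with
  | none => exact (smul_tmul_archAlg g (1 : ℝ) x).symm
  | some q => exact (smul_tmul_locAlg q g (1 : ℚ_[pv q]) x).symm

variable [Finite G] [FaithfulSMul G L]

/-- **Hilbert 90 for the local factors**: every `1`-cocycle with values in `(PlaceAlg L i)ˣ` is a
coboundary. -/
theorem isMulCoboundary₁_placeUnits (i : RatPlace) (f : G → (PlaceAlg L i)ˣ)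
    (hf : IsMulCocycle₁ f) : IsMulCoboundary₁ f := by
  classical
  have : Fintype (MulAction.orbitRel.Quotient G (MaximalSpectrum (PlaceAlg L i))) :=
    Fintype.ofFinite _
  exact isMulCoboundary₁_units G (orbitRep G (PlaceAlg L i)) (orbitRep_cov G (PlaceAlg L i))
    (orbitRep_sep G (PlaceAlg L i))
    (fun ω => faithfulSMul_residue_of_field G (placeIncl L i) (placeIncl_smul L G i) _) f hf

theorem h1TrivialOn_top_placeUnits (i : RatPlace) :
    H1TrivialOn G (⊤ : Subgroup (PlaceAlg L i)ˣ) :=
  h1TrivialOn_top_iff.mpr (isMulCoboundary₁_placeUnits L G i)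

/-- **`H¹(G, J_L) = 0`**, provided `H¹(G, locIntUnits L q) = 0` at almost all primes. -/
theorem isZero_H1_idele_of_finite
    (hU : {q : Nat.Primes | ¬ H1TrivialOn G (locIntUnits L q)}.Finite) :
    CategoryTheory.Limits.IsZero (groupCohomology (ideleRep L G) 1) :=
  isZero_H1_idele L G (h1TrivialOn_top_placeUnits L G) hU

end Fermat.Agent.Lib.CFT.Global.CohIdeles
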