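import Mathlib
import Fermat.Agent.Lib.CFT.Global.CohIdeles.UnramUnits
import Fermat.Agent.Lib.CFT.Global.CohIdeles.Hilbert90
import Fermat.Agent.Lib.CFT.Global.RamifiedFinite
import Fermat.Agent.Lib.CFT.Global.LocalComponents
import Fermat.Agent.Lib.CFT.Global.ClassFormation.GlobalInv

/-!
# The cohomology of the idele group, unconditionally (P-CFT, Global/CohIdeles, part D5)

helper58.  For a finite group `G` acting faithfully on the number field `L`:

* `finite_not_h1TrivialOn_locIntUnits`, `finite_not_h2TrivialOn_locIntUnits`: the integral units
  `locIntUnits L q` have trivial `H¹`, `H²` for almost all `q` (unramified primes);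
* `isZero_H1_ideleRep`: `H¹(G, J_L) = 0`;
* `H2_ideleRep_ext`, `H2_ideleRep_finite_support`: `H²(G, J_L) → ∏_i H²(G, (PlaceAlg L i)ˣ)` is
  injective with finitely supported image;
* in terms of the local component maps `locComp`, `archComp` of `Global/LocalComponents.lean`:
  `hasFiniteSupport` (`ClassFormation.HasFiniteSupport L G c` for every class `c`),
  `eq_zero_of_locComp_archComp` (joint injectivity), `exists_locComp_eq` (existence of a class
  with one prescribed local component).
-/

set_option autoImplicit false

open scoped TensorProduct NumberField Pointwise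

noncomputable section

namespace Fermat.Agent.Lib.CFT.Global.CohIdeles

open Fermat.Agent.Lib.CFT.Global Fermat.Agent.Lib.CFT.Global.Places
open Fermat.Agent.Lib.CFT.Global.EtaleAlg Fermat.Agent.Lib.CFT.Coh.RestrictedProd
open CategoryTheory CategoryTheory.Limits groupCohomology

attribute [local instance] Units.mulDistribMulActionRight

/-! ### Generic: joint injectivity of the explicit local projections at all maximal ideals -/

section Generic

variable {G E : Type} [Group G] [CommRing E] [MulSemiringAction G E] [IsArtinianRing E]
  [IsReduced E] [Finite G]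

/-- A class in `Hⁿ(G, Eˣ)` all of whose local projections vanish is zero. -/
theorem eq_zero_of_forall_unitsProj (n : ℕ)
    (y : groupCohomology (Rep.ofMulDistribMulAction G Eˣ) n)
    (h : ∀ m : MaximalSpectrum E, unitsProj G m n y = 0) : y = 0 := by
  classical
  have : Fintype (MulAction.orbitRel.Quotient G (MaximalSpectrum E)) := Fintype.ofFinite _
  apply (bijective_unitsProj G (orbitRep G E) (orbitRep_cov G E) (orbitRep_sep G E) n).1
  funext i
  show unitsProj G (orbitRep G E i) n y = unitsProj G (orbitRep G E i) n 0
  rw [h, map_zero]

end Generic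

variable (L : Type) [Field L] [NumberField L]
variable (G : Type) [Group G] [MulSemiringAction G L]

/-! ### Comparison of the projections -/

theorem ideleProjHom_some (q : Nat.Primes) :
    ideleProjHom L G (some q) = ideleLocProjRep L G q := rfl

theorem ideleProjHom_none : ideleProjHom L G none = ideleArchProjRep L G := rfl

/-- `locComp` in terms of the projection to the factor at `q`. -/
theorem locComp_apply (q : Nat.Primes) (m : MaximalSpectrum (LocAlg L q)) (n : ℕ)
    (c : groupCohomology (ideleRep L G) n) :
    locComp L G q m n c =
      unitsProj G m n (groupCohomology.map (MonoidHom.id G) (ideleProjHom L G (some q)) n c) := by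
  rw [locComp_eq, ideleProjHom_some]
  rfl

/-- `archComp` in terms of the projection to the archimedean factor. -/
theorem archComp_apply (a : MaximalSpectrum (ArchAlg L)) (n : ℕ)
    (c : groupCohomology (ideleRep L G) n) :
    archComp L G a n c =
      unitsProj G a n (groupCohomology.map (MonoidHom.id G) (ideleProjHom L G none) n c) := by
  rw [archComp_eq, ideleProjHom_none]
  rfl

/-- A class with vanishing projection to the factor at `q` has vanishing local components
above `q`. -/
theorem locComp_eq_zero_of_proj (q : Nat.Primes) (m : MaximalSpectrum (LocAlg L q)) (n : ℕ)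
    (c : groupCohomology (ideleRep L G) n)
    (h : groupCohomology.map (MonoidHom.id G) (ideleProjHom L G (some q)) n c = 0) :
    locComp L G q m n c = 0 := by
  rw [locComp_apply]
  exact (congrArg (unitsProj G m n) h).trans (map_zero _)

/-- A class with vanishing projection to the archimedean factor has vanishing archimedean
local components. -/
theorem archComp_eq_zero_of_proj (a : MaximalSpectrum (ArchAlg L)) (n : ℕ)
    (c : groupCohomology (ideleRep L G) n)
    (h : groupCohomology.map (MonoidHom.id G) (ideleProjHom L G none) n c = 0) :
    archComp L G a n c = 0 := by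
  rw [archComp_apply]
  exact (congrArg (unitsProj G a n) h).trans (map_zero _)

variable [Finite G] [FaithfulSMul G L]

/-! ### Almost all primes are cohomologically trivial -/

theorem finite_not_h1TrivialOn_locIntUnits :
    {q : Nat.Primes | ¬ H1TrivialOn G (locIntUnits L q)}.Finite := by
  obtain ⟨S₀, hS₀⟩ := RamifiedFinite.exists_finset_forall_inertia_eq_bot L G
  refine S₀.finite_toSet.subset (fun q hq => ?_)
  by_contra hqS
  exact hq (locIntUnits_h1TrivialOn (fun w => hS₀ q hqS w.1 w.2))

theorem finite_not_h2TrivialOn_locIntUnits :
    {q : Nat.Primes | ¬ H2TrivialOn G (locIntUnits L q)}.Finite := by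
  obtain ⟨S₀, hS₀⟩ := RamifiedFinite.exists_finset_forall_inertia_eq_bot L G
  refine S₀.finite_toSet.subset (fun q hq => ?_)
  by_contra hqS
  exact hq (locIntUnits_h2TrivialOn (fun w => hS₀ q hqS w.1 w.2))

/-- **`H¹(G, J_L) = 0`.** -/
theorem isZero_H1_ideleRep : IsZero (groupCohomology (ideleRep L G) 1) :=
  isZero_H1_idele_of_finite L G (finite_not_h1TrivialOn_locIntUnits L G)

/-- **Injectivity of `H²(G, J_L) → ∏_i H²(G, (PlaceAlg L i)ˣ)`.** -/
theorem H2_ideleRep_ext (x : groupCohomology (ideleRep L G) 2)
    (hx : ∀ i, groupCohomology.map (MonoidHom.id G) (ideleProjHom L G i) 2 x = 0) : x = 0 :=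
  H2_idele_ext L G (finite_not_h2TrivialOn_locIntUnits L G) x hx

/-- **Finite support of the components of a class in `H²(G, J_L)`.** -/
theorem H2_ideleRep_finite_support (x : groupCohomology (ideleRep L G) 2) :
    {i | groupCohomology.map (MonoidHom.id G) (ideleProjHom L G i) 2 x ≠ 0}.Finite :=
  H2_idele_finite_support L G (finite_not_h2TrivialOn_locIntUnits L G) x

/-! ### In terms of the local component maps -/

/-- **Every class in `H²(G, J_L)` has finite support.** -/
theorem hasFiniteSupport (c : groupCohomology (ideleRep L G) 2) :
    ClassFormation.HasFiniteSupport L G c := by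
  have h := (H2_ideleRep_finite_support L G c).preimage
    (Set.injOn_of_injective (Option.some_injective Nat.Primes))
  refine h.subset ?_
  rintro q ⟨m, hm⟩
  show groupCohomology.map (MonoidHom.id G) (ideleProjHom L G (some q)) 2 c ≠ 0
  intro h0
  exact hm (locComp_eq_zero_of_proj L G q m 2 c h0)

/-- **Joint injectivity of the local component maps on `H²(G, J_L)`.** -/
theorem eq_zero_of_locComp_archComp (c : groupCohomology (ideleRep L G) 2)
    (hloc : ∀ (q : Nat.Primes) (m : MaximalSpectrum (LocAlg L q)), locComp L G q m 2 c = 0)
    (harch : ∀ a : MaximalSpectrum (ArchAlg L), archComp L G a 2 c = 0) : c = 0 := by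
  apply H2_ideleRep_ext
  intro i
  cases i with
  | none =>
    have := PlacesInfinite.isArtinianRing_archAlg L
    have := PlacesInfinite.isReduced_archAlg L
    refine eq_zero_of_forall_unitsProj (E := ArchAlg L) 2 _ (fun a => ?_)
    exact (archComp_apply L G a 2 c).symm.trans (harch a)
  | some q =>
    refine eq_zero_of_forall_unitsProj (E := LocAlg L q) 2 _ (fun m => ?_)
    exact (locComp_apply L G q m 2 c).symm.trans (hloc q m)

/-! ### Existence of classes with prescribed components -/

omit [Finite G] [FaithfulSMul G L] in
/-- **Every finitely supported family of semi-local classes comes from `H²(G, J_L)`**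
(in terms of the projections `ideleLocProjRep`, `ideleArchProjRep`). -/
theorem exists_proj_eq
    (z : ∀ q : Nat.Primes, groupCohomology (Rep.ofMulDistribMulAction G (LocAlg L q)ˣ) 2)
    (hz : {q | z q ≠ 0}.Finite)
    (za : groupCohomology (Rep.ofMulDistribMulAction G (ArchAlg L)ˣ) 2) :
    ∃ c : groupCohomology (ideleRep L G) 2,
      (∀ q, groupCohomology.map (MonoidHom.id G) (ideleLocProjRep L G q) 2 c = z q) ∧
        groupCohomology.map (MonoidHom.id G) (ideleArchProjRep L G) 2 c = za := by
  let Y : ∀ i : RatPlace, groupCohomology (Rep.ofMulDistribMulAction G (PlaceAlg L i)ˣ) 2 :=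
    fun i => match i with
      | none => za
      | some q => z q
  have hY : {i | Y i ≠ 0}.Finite := by
    refine ((hz.image some).union (Set.finite_singleton none)).subset (fun i hi => ?_)
    cases i with
    | none => exact Or.inr rfl
    | some q => exact Or.inl ⟨q, hi, rfl⟩
  obtain ⟨c, hc⟩ := H2_idele_exists L G Y hY
  exact ⟨c, fun q => hc (some q), hc none⟩

omit [FaithfulSMul G L] in
/-- **Existence of a class with prescribed local components above one prime `q₀`** (at a system
of representatives `r` of the `G`-orbits of primes above `q₀`) and trivial components at all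
other places. -/
theorem exists_locComp_eq (q₀ : Nat.Primes) {ι : Type} [Fintype ι] [DecidableEq ι]
    (r : ι → MaximalSpectrum (LocAlg L q₀))
    (hcov : ∀ m : MaximalSpectrum (LocAlg L q₀), ∃ i, ∃ g : G, g • m = r i)
    (hsep : ∀ i j (g : G), g • r i = r j → i = j)
    (y : ∀ i, groupCohomology (Rep.ofMulDistribMulAction (MulAction.stabilizer G (r i))
      (LocAlg L q₀ ⧸ (r i).asIdeal)ˣ) 2) :
    ∃ c : groupCohomology (ideleRep L G) 2,
      (∀ i, locComp L G q₀ (r i) 2 c = y i) ∧
      (∀ (q : Nat.Primes) (m : MaximalSpectrum (LocAlg L q)), q ≠ q₀ →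
        locComp L G q m 2 c = 0) ∧
      ∀ a : MaximalSpectrum (ArchAlg L), archComp L G a 2 c = 0 := by
  classical
  obtain ⟨z, hz⟩ := (bijective_unitsProj G r hcov hsep 2).2 y
  obtain ⟨c, hc, hca⟩ := exists_proj_eq L G
    (Function.update (fun _ => 0) q₀ z)
    ((Set.finite_singleton q₀).subset (fun q hq => by
      by_contra hne
      exact hq (Function.update_of_ne hne _ _))) 0
  refine ⟨c, fun i => ?_, fun q m hq => ?_, fun a => ?_⟩
  · rw [locComp_eq]
    have h1 := hc q₀
    rw [Function.update_self] at h1
    have h2 := congrFun hz i
    exact (congrArg (unitsProj G (r i) 2) h1).trans h2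
  · refine locComp_eq_zero_of_proj L G q m 2 c ?_
    have h1 := hc q
    rw [Function.update_of_ne hq] at h1
    exact h1
  · exact archComp_eq_zero_of_proj L G a 2 c hca

end Fermat.Agent.Lib.CFT.Global.CohIdeles
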