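import Mathlib
import Fermat.Agent.Lib.CFT.Global.CohIdeles.LocalComp
import Fermat.Agent.Lib.CFT.Global.ClassFormation.SumFormula
import Fermat.Agent.Lib.CFT.Global.SecondIneq.Unconditional

/-!
# The Hasse package for `H²` (P-CFT, Global/CohIdeles, part D5, final shapes)

helper58.  For a finite group `N` acting faithfully on the number field `M`, in terms of the local
component maps `locComp`, `archComp` of `Global/LocalComponents.lean`:

* `idele_H2_ext`: a class of `H²(N, J_M)` with vanishing local components is zero;
* `hasFiniteSupport` (in `LocalComp.lean`): every class of `H²(N, J_M)` has finite support;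
* `locComp_smul_eq_zero_iff`: the vanishing of a local component only depends on the orbit of the
  prime;
* `exists_class_with_component`: existence of a class of `H²(N, J_M)` with one prescribed local
  component and vanishing components outside the orbit of that prime;
* `hasse_units`, `hasse_units'`: the Hasse principle for `H²(N, Mˣ)`.
-/

set_option autoImplicit false

open scoped TensorProduct NumberField Pointwise

noncomputable section

namespace Fermat.Agent.Lib.CFT.Global.CohIdeles

open Fermat.Agent.Lib.CFT.Global Fermat.Agent.Lib.CFT.Global.Places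
open Fermat.Agent.Lib.CFT.Global.EtaleAlg Fermat.Agent.Lib.CFT.Coh.RestrictedProd
open CategoryTheory CategoryTheory.Limits groupCohomology

attribute [local instance] Units.mulDistribMulActionRight

variable (M : Type) [Field M] [NumberField M]
variable (N : Type) [Group N] [Finite N] [MulSemiringAction N M] [FaithfulSMul N M]

/-- **Joint injectivity of the local component maps on `H²(N, J_M)`.** -/
theorem idele_H2_ext (c : groupCohomology (ideleRep M N) 2)
    (hfin : ∀ (q : Nat.Primes) (m : MaximalSpectrum (LocAlg M q)), locComp M N q m 2 c = 0)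
    (harch : ∀ a : MaximalSpectrum (ArchAlg M), archComp M N a 2 c = 0) : c = 0 :=
  eq_zero_of_locComp_archComp M N c hfin harch

/-! ### Conjugation invariance of the vanishing of local components -/

/-- If the local component of `c` at `m` vanishes, so does the one at `g⁻¹ • m`. -/
theorem locComp_inv_smul_eq_zero (q : Nat.Primes) (g : N) (m : MaximalSpectrum (LocAlg M q))
    (n : ℕ) (c : groupCohomology (ideleRep M N) n) (h : locComp M N q m n c = 0) :
    locComp M N q (g⁻¹ • m) n c = 0 := by
  have hι := ClassFormation.toRingHom_inv_conj_smul M N g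
  have hm := ClassFormation.asIdeal_eq_comap_inv_smul M N q g m
  have hid : groupCohomology.map (MulAut.conj g).toMonoidHom
      (ideleMapRepHom (MulAut.conj g).toMonoidHom (MulSemiringAction.toRingHom N M g⁻¹) hι) n =
      𝟙 (groupCohomology (ideleRep M N) n) := by
    refine Coh.ConjTrivial.map_eq_id_of_conj (ideleRep M N) g _ (fun x => rfl) _ (fun a => ?_) n
    rfl
  have key := locComp_natural (MulAut.conj g).toMonoidHom
    (MulSemiringAction.toRingHom N M g⁻¹) hι q m (g⁻¹ • m) hm n
  rw [hid, Category.id_comp] at key
  rw [key, ConcreteCategory.comp_apply, h, map_zero]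

/-- The vanishing of the local component at `m` only depends on the orbit of `m`. -/
theorem locComp_smul_eq_zero_iff (q : Nat.Primes) (g : N) (m : MaximalSpectrum (LocAlg M q))
    (n : ℕ) (c : groupCohomology (ideleRep M N) n) :
    locComp M N q (g • m) n c = 0 ↔ locComp M N q m n c = 0 := by
  constructor
  · intro h
    have h1 := locComp_inv_smul_eq_zero M N q g (g • m) n c h
    rwa [inv_smul_smul] at h1
  · intro h
    have h1 := locComp_inv_smul_eq_zero M N q g⁻¹ m n c h
    rwa [inv_inv] at h1

/-! ### Existence of a class with one prescribed local component -/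

/-- **Existence of a class of `H²(N, J_M)` with a prescribed local component at the prime `m`
above `q`**, and vanishing local components at all primes above other rational primes, at all
primes above `q` outside the orbit of `m`, and at the archimedean places. -/
theorem exists_class_with_component (q : Nat.Primes) (m : MaximalSpectrum (LocAlg M q))
    (y : groupCohomology (Rep.ofMulDistribMulAction (MulAction.stabilizer N m)
      (LocAlg M q ⧸ m.asIdeal)ˣ) 2) :
    ∃ c : groupCohomology (ideleRep M N) 2,
      locComp M N q m 2 c = y ∧
      (∀ (q' : Nat.Primes) (m' : MaximalSpectrum (LocAlg M q')), q' ≠ q →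
        locComp M N q' m' 2 c = 0) ∧
      (∀ m' : MaximalSpectrum (LocAlg M q), m' ∉ MulAction.orbit N m →
        locComp M N q m' 2 c = 0) ∧
      ∀ a : MaximalSpectrum (ArchAlg M), archComp M N a 2 c = 0 := by
  classical
  -- a system of representatives of the orbits containing `m`
  let Ω := MulAction.orbitRel.Quotient N (MaximalSpectrum (LocAlg M q))
  let ω₀ : Ω := Quotient.mk'' m
  let J := {ω : Ω // ω ≠ ω₀}
  have : Fintype Ω := Fintype.ofFinite _
  let r : Option J → MaximalSpectrum (LocAlg M q) := fun i =>
    match i with
    | none => m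
    | some j => orbitRep N (LocAlg M q) j.1
  have hmk : ∀ ω : Ω, (Quotient.mk'' (orbitRep N (LocAlg M q) ω) : Ω) = ω :=
    fun ω => Quotient.out_eq' ω
  have hmk_smul : ∀ (g : N) (x : MaximalSpectrum (LocAlg M q)),
      (Quotient.mk'' (g • x) : Ω) = Quotient.mk'' x := by
    intro g x
    apply Quotient.sound'
    exact ⟨g, rfl⟩
  have hcov : ∀ m' : MaximalSpectrum (LocAlg M q), ∃ i, ∃ g : N, g • m' = r i := by
    intro m'
    by_cases hm' : (Quotient.mk'' m' : Ω) = ω₀
    · obtain ⟨g, hg⟩ := Quotient.exact' hm'
      refine ⟨none, g⁻¹, ?_⟩
      show g⁻¹ • m' = m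
      rw [← hg, inv_smul_smul]
    · obtain ⟨ω, g, hg⟩ := orbitRep_cov N (LocAlg M q) m'
      have hω : ω = Quotient.mk'' m' := by
        rw [← hmk ω, ← hg, hmk_smul]
      exact ⟨some ⟨ω, by rw [hω]; exact hm'⟩, g, hg⟩
  have hsep : ∀ i j (g : N), g • r i = r j → i = j := by
    intro i j g hg
    cases i with
    | none =>
      cases j with
      | none => rfl
      | some j =>
        exfalso
        apply j.2
        have h1 : g • m = orbitRep N (LocAlg M q) j.1 := hg
        rw [← hmk j.1, ← h1, hmk_smul]
    | some i =>
      cases j with
      | none =>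
        exfalso
        apply i.2
        have h1 : g • orbitRep N (LocAlg M q) i.1 = m := hg
        rw [← hmk i.1, ← hmk_smul g, h1]
      | some j =>
        have h1 : g • orbitRep N (LocAlg M q) i.1 = orbitRep N (LocAlg M q) j.1 := hg
        have h2 := orbitRep_sep N (LocAlg M q) i.1 j.1 g h1
        exact congrArg some (Subtype.ext h2)
  let y' : ∀ i : Option J, groupCohomology (Rep.ofMulDistribMulAction
      (MulAction.stabilizer N (r i)) (LocAlg M q ⧸ (r i).asIdeal)ˣ) 2 := fun i =>
    match i with
    | none => y
    | some _ => 0
  obtain ⟨c, hc, hc', hca⟩ := exists_locComp_eq M N q r hcov hsep y'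
  refine ⟨c, hc none, fun q' m' hq' => hc' q' m' hq', fun m' hm' => ?_, hca⟩
  obtain ⟨i, g, hg⟩ := hcov m'
  cases i with
  | none =>
    exfalso
    apply hm'
    refine ⟨g⁻¹, ?_⟩
    show g⁻¹ • m = m'
    have h1 : g • m' = m := hg
    rw [← h1, inv_smul_smul]
  | some j =>
    have h1 : locComp M N q (r (some j)) 2 c = 0 := hc (some j)
    have h2 := locComp_inv_smul_eq_zero M N q g (r (some j)) 2 c h1
    rwa [← hg, inv_smul_smul] at h2

/-! ### The Hasse principle for `H²(N, Mˣ)` -/

/-- **Hasse principle**: a class of `H²(N, Mˣ)` which is locally trivial everywhere is trivial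
(given `H¹(N, C_M) = 0`). -/
theorem hasse_units (h1 : IsZero (groupCohomology (ideleClassRep M N) 1))
    (c : groupCohomology (unitsRep M N) 2)
    (hfin : ∀ (q : Nat.Primes) (m : MaximalSpectrum (LocAlg M q)),
      locComp M N q m 2 (ClassFormation.principalClass M N c) = 0)
    (harch : ∀ a : MaximalSpectrum (ArchAlg M),
      archComp M N a 2 (ClassFormation.principalClass M N c) = 0) : c = 0 := by
  have h0 := idele_H2_ext M N _ hfin harch
  apply hasse_principle_H2 M N h1
  exact h0.trans (map_zero ((groupCohomology.functor ℤ N 2).map (principalRepHom M N)).hom).symm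

/-- **Hasse principle**, unconditional. -/
theorem hasse_units' (c : groupCohomology (unitsRep M N) 2)
    (hfin : ∀ (q : Nat.Primes) (m : MaximalSpectrum (LocAlg M q)),
      locComp M N q m 2 (ClassFormation.principalClass M N c) = 0)
    (harch : ∀ a : MaximalSpectrum (ArchAlg M),
      archComp M N a 2 (ClassFormation.principalClass M N c) = 0) : c = 0 :=
  hasse_units M N (SecondIneq.Consequences.ideleClass_H1_isZero M N) c hfin harch

end Fermat.Agent.Lib.CFT.Global.CohIdeles
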